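import Mathlib
import Fermat.Agent.H19.ORD.CuspIntDefs
import Fermat.Agent.H62.SS2.PhiSharp
import Fermat.Agent.H32.IgusaRelations

/-!
# P-ORD (S33), row 1166 [CUSP-INT] (helper99, second seat)

`cuspInt : Fermat.Agent.H19.ORD.CuspIntStatement` : for every prime `p`, `j(q^p) / j(q)^p` is
integral over `ℤ[1 / j]`.

Route: helper62's `Fermat.Agent.H62.SS2.phiSharp` gives the modular polynomial
`Φ = (Y - X^p)(Y^p - X) + p Ψ ∈ ℤ[X][Y]`, monic of degree `p + 1` in `Y`, with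
`deg_X Ψ_b ≤ p` and `Φ(j(t^p), j(t^{p²})) = 0`.  Undoing `t ↦ t^p` : `Φ(j, j_p) = 0`.  The
coefficient `c_b` of `Y^b` has `deg_X c_b ≤ p (p + 1 - b) =: n_b` for `b ≤ p`, so
`P := Y^(p+1) + ∑_{b ≤ p} (∑_{a ≤ n_b} c_{b,a} X^(n_b - a)) Y^b` is monic with
`P(1 / j, j_p / j^p) = j^(-p (p + 1)) Φ(j, j_p) = 0`.
-/

set_option autoImplicit false

noncomputable section

namespace Fermat.Agent.H99.ORD

open Polynomial

section Abstract

variable {E : Type*} [Field E]

theorem ci_pow_mul_inv_pow {x : E} (hx : x ≠ 0) {i n : ℕ} (hi : i ≤ n) :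
    x ^ i * x⁻¹ ^ n = x⁻¹ ^ (n - i) := by
  obtain ⟨k, rfl⟩ := Nat.exists_eq_add_of_le hi
  rw [Nat.add_sub_cancel_left, pow_add, ← mul_assoc, ← mul_pow, mul_inv_cancel₀ hx, one_pow,
    one_mul]

/-- The coefficient polynomial `c`, reflected to degree `n` : `X^n c(1 / X)`. -/
def ciRefl (c : Polynomial ℤ) (n : ℕ) : Polynomial ℤ :=
  ∑ a ∈ Finset.range (n + 1), C (c.coeff a) * X ^ (n - a)

theorem ciRefl_eval (c : Polynomial ℤ) (n : ℕ) (hc : c.natDegree ≤ n) (u : E) (hu : u ≠ 0) :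
    (ciRefl c n).eval₂ (Int.castRingHom E) u⁻¹ = c.eval₂ (Int.castRingHom E) u * u⁻¹ ^ n := by
  rw [ciRefl, Polynomial.eval₂_finsetSum,
    Polynomial.eval₂_eq_sum_range' _ (Nat.lt_succ_of_le hc), Finset.sum_mul]
  refine Finset.sum_congr rfl fun a ha => ?_
  have ha' : a ≤ n := Nat.lt_succ_iff.1 (Finset.mem_range.1 ha)
  rw [eval₂_mul, eval₂_C, eval₂_X_pow, mul_assoc, ci_pow_mul_inv_pow hu ha']

/-- The monic polynomial of `v / u^q` over `ℤ[1 / u]`. -/
def ciPoly (Φ : Polynomial (Polynomial ℤ)) (N q : ℕ) : Polynomial (Polynomial ℤ) :=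
  X ^ N + ∑ b ∈ Finset.range N, C (ciRefl (Φ.coeff b) (q * (N - b))) * X ^ b

theorem ciPoly_monic (Φ : Polynomial (Polynomial ℤ)) (N q : ℕ) : (ciPoly Φ N q).Monic := by
  apply Polynomial.monic_X_pow_add
  refine lt_of_le_of_lt (Polynomial.degree_sum_le _ _) ?_
  refine (Finset.sup_lt_iff (WithBot.bot_lt_coe N)).2 fun b hb => ?_
  exact lt_of_le_of_lt (Polynomial.degree_C_mul_X_pow_le b _)
    (WithBot.coe_lt_coe.2 (Finset.mem_range.1 hb))

theorem ciPoly_eval (Φ : Polynomial (Polynomial ℤ)) (N q : ℕ) (hΦd : Φ.natDegree ≤ N)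
    (hΦN : Φ.coeff N = 1)
    (hcoef : ∀ b, b < N → (Φ.coeff b).natDegree ≤ q * (N - b)) (u v : E) (hu : u ≠ 0)
    (hrel : (Φ.map (Polynomial.eval₂RingHom (Int.castRingHom E) u)).eval v = 0) :
    ((ciPoly Φ N q).map (Polynomial.eval₂RingHom (Int.castRingHom E) u⁻¹)).eval
      (v * u⁻¹ ^ q) = 0 := by
  have h1 : ∑ b ∈ Finset.range (N + 1),
      (Φ.coeff b).eval₂ (Int.castRingHom E) u * v ^ b = 0 := by
    rw [← hrel, Polynomial.eval_eq_sum_range'
      (lt_of_le_of_lt (Polynomial.natDegree_map_le) (Nat.lt_succ_of_le hΦd))]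
    refine Finset.sum_congr rfl fun b _ => ?_
    rw [Polynomial.coeff_map, Polynomial.coe_eval₂RingHom]
  rw [Finset.sum_range_succ, hΦN, eval₂_one, one_mul] at h1
  have h2 : ∀ b ∈ Finset.range N,
      ((C (ciRefl (Φ.coeff b) (q * (N - b))) * X ^ b : Polynomial (Polynomial ℤ)).map
        (Polynomial.eval₂RingHom (Int.castRingHom E) u⁻¹)).eval (v * u⁻¹ ^ q)
      = ((Φ.coeff b).eval₂ (Int.castRingHom E) u * v ^ b) * u⁻¹ ^ (q * N) := by
    intro b hb
    have hb' := Finset.mem_range.1 hb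
    rw [Polynomial.map_mul, Polynomial.map_C, Polynomial.map_pow, Polynomial.map_X, eval_mul,
      eval_C, eval_pow, eval_X, coe_eval₂RingHom, ciRefl_eval _ _ (hcoef b hb') u hu, mul_pow,
      ← pow_mul]
    have e : q * N = q * (N - b) + q * b := by
      rw [← Nat.mul_add, Nat.sub_add_cancel hb'.le]
    rw [e, pow_add]
    ring
  rw [ciPoly, Polynomial.map_add, Polynomial.map_pow, Polynomial.map_X, Polynomial.eval_add,
    Polynomial.eval_pow, Polynomial.eval_X, Polynomial.map_sum, Polynomial.eval_finsetSum,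
    Finset.sum_congr rfl h2, ← Finset.sum_mul, mul_pow, ← pow_mul]
  have e : v ^ N * u⁻¹ ^ (q * N) +
      (∑ b ∈ Finset.range N, (Φ.coeff b).eval₂ (Int.castRingHom E) u * v ^ b) * u⁻¹ ^ (q * N)
      = ((∑ b ∈ Finset.range N, (Φ.coeff b).eval₂ (Int.castRingHom E) u * v ^ b) + v ^ N)
        * u⁻¹ ^ (q * N) := by ring
  rw [e, h1, zero_mul]

end Abstract

open ModularCurve Fermat.Agent.H27 in
/-- **[CUSP-INT]** (row 1166) : `j(q^p) / j(q)^p` is integral over `ℤ[1 / j]`. -/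
theorem cuspInt : Fermat.Agent.H19.ORD.CuspIntStatement := by
  intro p _ hp
  obtain ⟨Φ, Ψ, hΦm, hΦd, hΦ, -, hΨ, -, hrel⟩ := Fermat.Agent.H62.SS2.phiSharp p hp
  have hp2 : 2 ≤ p := hp.two_le
  have hΦN : Φ.coeff (p + 1) = 1 := by
    have h := hΦm.coeff_natDegree
    rwa [hΦd] at h
  have hcoef : ∀ b, b < p + 1 → (Φ.coeff b).natDegree ≤ p * (p + 1 - b) := by
    intro b hb
    have hpos : p ≤ p * (p + 1 - b) := Nat.le_mul_of_pos_right p (by omega)
    rw [hΦ, Polynomial.coeff_add, Polynomial.coeff_C_mul]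
    refine (Polynomial.natDegree_add_le _ _).trans (max_le ?_ ?_)
    · rcases Nat.eq_zero_or_pos b with h0 | h0
      · subst h0
        rw [Fermat.Agent.H62.SS2.phs_kron_coeff_zero p hp2, Polynomial.natDegree_X_pow,
          Nat.sub_zero]
        exact Nat.le_mul_of_pos_left (p + 1) (by omega)
      · exact (Fermat.Agent.H62.SS2.phs_kron_coeff_natDegree p b hp2 h0).trans hpos
    · exact (Polynomial.natDegree_C_mul_le _ _).trans ((hΨ b).trans hpos)
  -- the modular equation `Φ(j, j_p) = 0` over `ℚ`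
  have h2 := (hrel ℚ).2
  have h3 : (Φ.map (evalAt (jqModC ℚ))).eval (baseS ℚ p) = 0 := by
    apply qExpand_injective (R := ℚ) p
    rw [map_zero, Fermat.Agent.H32.qExpand_eval_map_evalAt]
    exact h2
  have hj0 : (jq : LaurentSeries ℚ) ≠ 0 := by
    intro h
    have h1 : jqModC ℚ = 0 := h
    have h3 := congrArg (fun y : LaurentSeries ℚ => y.coeff (-1)) h1
    simp only [HahnSeries.coeff_zero] at h3
    rw [ModularCurve.coeff_jqModC_neg_one] at h3
    exact one_ne_zero h3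
  exact ⟨ciPoly Φ (p + 1) p, ciPoly_monic _ _ _,
    ciPoly_eval Φ (p + 1) p (le_of_eq hΦd) hΦN hcoef jq (qExpand ℚ p jq) hj0 h3⟩

end Fermat.Agent.H99.ORD

end
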