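import Mathlib
import Fermat.Agent.H18.ORD.NodalSemiDefs
import Fermat.Agent.H18.ORD.NodalSemiElim
import Fermat.Agent.H19.FF.UnrResidueSurj

/-!
# P-ORD (S33), block B1-LIFT : [LIFT-ASM] (helper99)

`nodalLiftAsm : Fermat.Agent.H18.ORD.NodalLiftAsmStatement` : the lifting statement (LIFT) at one
pair of base places `(P∞, P0)` from the node count [NC] `g + 1 ≤ g_∞ + g_0 + s` and (PAIR-SEMI).

Proof.  (PAIR-SEMI) gives `d = l(n P∞ + n P0)` inertia-fixed `w_i ∈ V_∞ ∩ V_0 ∩ L(n P∞ + n P0)`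
whose pairs of reductions are `k`-linearly independent; by CONTAIN
(`Fermat.Agent.H18.ORD.NodalRvHyp.contain`) they lie in the glued space
`gluedSpace G (n Q∞) (n Q0)`.  For `n` large the gluing map is onto, so the glued space has
dimension `(n + 1 - g_∞) + (n + 1 - g_0) - s ≤ 2 n + 1 - g = d` : the pairs span it.  Write
`(x, y) = ∑ c_i (red w_i)`, lift the `c_i` to inertia-fixed integers `a_i`
(`Fermat.Agent.H19.FF.unrResidueSurj`) and put `u = ∑ a_i w_i`.
-/

set_option autoImplicit false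
set_option linter.unusedSectionVars false
set_option linter.unusedVariables false
set_option linter.style.haveILetI false
set_option maxHeartbeats 1600000
set_option synthInstance.maxHeartbeats 400000

noncomputable section

open AlgebraicCurve ModularCurve

namespace Fermat.Agent.H99.ORD

open Fermat.Agent.H72.FF Fermat.Agent.H18.ORD Fermat.Agent.H85.ORD Fermat.Agent.H94.ORD
  Fermat.Agent.H27.ESD Fermat.Agent.H69.ORD

section LinAlg

/-- `d` linearly independent vectors of a subspace of dimension `≤ d` span it. -/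
theorem la_exists_coeff {k V : Type*} [Field k] [AddCommGroup V] [Module k V]
    (W : Submodule k V) [Module.Finite k W] {d : ℕ} (z : Fin d → V) (hz : ∀ i, z i ∈ W)
    (hli : LinearIndependent k z) (hd : Module.finrank k W ≤ d) (x : V) (hx : x ∈ W) :
    ∃ c : Fin d → k, ∑ i, c i • z i = x := by
  classical
  set z' : Fin d → W := fun i => ⟨z i, hz i⟩ with hz'
  have hli' : LinearIndependent k z' := by
    apply LinearIndependent.of_comp W.subtype
    exact hli
  have hcard : Fintype.card (Fin d) = Module.finrank k W := by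
    have h1 := hli'.fintype_card_le_finrank
    rw [Fintype.card_fin] at h1 ⊢
    omega
  have hspan := hli'.span_eq_top_of_card_eq_finrank' hcard
  have hmem : (⟨x, hx⟩ : W) ∈ Submodule.span k (Set.range z') := by
    rw [hspan]
    exact Submodule.mem_top
  obtain ⟨c, hc⟩ := (Submodule.mem_span_range_iff_exists_fun k).1 hmem
  refine ⟨c, ?_⟩
  have h2 := congrArg W.subtype hc
  rw [map_sum] at h2
  exact h2

end LinAlg

variable {N : ℕ} {A : ValuationSubring Qb} {Foo F0 : Type} [Field Foo] [Field F0]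
  [Algebra (kRes A) Foo] [Algebra (kRes A) F0] {ι : Type}

/-- the gluing map is onto for `Doo = n Q∞`, `n` large, UNIFORMLY in the divisor `D0`. -/
theorem la_glueMap_surjective [Finite ι] (G : NodalData N A Foo F0 ι) {goo g0 : ℕ}
    (pkOo : RiemannPackage (kRes A) Foo goo)
    (pk0 : RiemannPackage (kRes A) F0 g0) (hinj : Function.Injective G.nOo)
    (Qoo : Place (kRes A) Foo) (hQoo : Qoo ∉ Set.range G.nOo) :
    ∃ n₂ : ℕ, ∀ n : ℕ, n₂ ≤ n →
      ∀ (D0 : Divisor (kRes A) F0) (hD0 : ∀ ν, D0 (G.n0 ν) ≤ 0)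
        (hDoo : ∀ ν, (Finsupp.single Qoo (n : ℤ) : Divisor (kRes A) Foo) (G.nOo ν) ≤ 0),
        Function.Surjective
          (glueMap G pkOo.deg_one pk0.deg_one (Finsupp.single Qoo (n : ℤ)) D0 hDoo hD0) := by
  classical
  haveI := Fintype.ofFinite ι
  have hS : Qoo ∉ Finset.univ.image G.nOo := by
    intro h
    obtain ⟨ν, -, hν⟩ := Finset.mem_image.mp h
    exact hQoo ⟨ν, hν⟩
  obtain ⟨n₂, hn₂⟩ := sys_exists_interp pkOo Qoo (Finset.univ.image G.nOo) hS
  refine ⟨n₂, fun n hn D0 hD0 hDoo t => ?_⟩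
  obtain ⟨y, hy, hyS⟩ := hn₂ n hn
    (fun v => if h : ∃ ν, G.nOo ν = v then t (Classical.choose h) else 0)
  refine ⟨(⟨y, hy⟩, 0), ?_⟩
  funext ν
  rw [glueMap_apply]
  have h1 := hyS (G.nOo ν) (Finset.mem_image.mpr ⟨ν, Finset.mem_univ _, rfl⟩)
  have hex : ∃ ν', G.nOo ν' = G.nOo ν := ⟨ν, rfl⟩
  rw [dif_pos hex] at h1
  have h2 : Classical.choose hex = ν := hinj (Classical.choose_spec hex)
  rw [h2] at h1
  show evalAt _ _ _ _ (⟨y, hy⟩ : ↥(riemannRochSpace _)) - evalAt _ _ _ _ 0 = t ν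
  rw [map_zero, sub_zero]
  exact evalAt_eq _ _ _ _ _ h1

/-- **[LIFT-ASM]** -/
theorem nodalLiftAsm : NodalLiftAsmStatement := by
  intro N p A Foo F0 _ _ _ _ ι G g goo g0 hp hA H hfin pk pkOo pk0 hNC Poo P0 Qoo Q0 hPoo hP0 hPS
  classical
  haveI := hfin
  have hQoo : Qoo ∉ Set.range G.nOo := H.r_oo Poo Qoo hPoo
  have hQ0 : Q0 ∉ Set.range G.n0 := H.r_zero P0 Q0 hP0
  have hDoo : ∀ (n : ℕ) (ν : ι),
      (Finsupp.single Qoo (n : ℤ) : Divisor (kRes A) Foo) (G.nOo ν) ≤ 0 := by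
    intro n ν
    rw [Finsupp.single_apply, if_neg (fun h => hQoo ⟨ν, h.symm⟩)]
  have hD0 : ∀ (n : ℕ) (ν : ι),
      (Finsupp.single Q0 (n : ℤ) : Divisor (kRes A) F0) (G.n0 ν) ≤ 0 := by
    intro n ν
    rw [Finsupp.single_apply, if_neg (fun h => hQ0 ⟨ν, h.symm⟩)]
  obtain ⟨c, hc⟩ := pk.eq_of_large
  obtain ⟨coo, hcoo⟩ := pkOo.eq_of_large
  obtain ⟨c0, hc0⟩ := pk0.eq_of_large
  obtain ⟨n₂, hn₂⟩ := la_glueMap_surjective G pkOo pk0 H.nOo_inj Qoo hQoo
  refine ⟨max (max n₂ c.toNat) (max coo.toNat c0.toNat), fun n hn x hx y hy hxy => ?_⟩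
  have hn2 : n₂ ≤ n := le_trans (le_trans (le_max_left _ _) (le_max_left _ _)) hn
  have hnc : c ≤ (n : ℤ) :=
    Int.toNat_le.1 (le_trans (le_trans (le_max_right _ _) (le_max_left _ _)) hn)
  have hncoo : coo ≤ (n : ℤ) :=
    Int.toNat_le.1 (le_trans (le_trans (le_max_left _ _) (le_max_right _ _)) hn)
  have hnc0 : c0 ≤ (n : ℤ) :=
    Int.toNat_le.1 (le_trans (le_trans (le_max_right _ _) (le_max_right _ _)) hn)
  -- degrees
  have hdegOo : Divisor.degree (Finsupp.single Qoo (n : ℤ) : Divisor (kRes A) Foo) = n := by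
    rw [Divisor.degree_single, pkOo.deg_one, Nat.cast_one, mul_one]
  have hdeg0 : Divisor.degree (Finsupp.single Q0 (n : ℤ) : Divisor (kRes A) F0) = n := by
    rw [Divisor.degree_single, pk0.deg_one, Nat.cast_one, mul_one]
  have hdeg : Divisor.degree (twoPt Poo P0 n) = 2 * (n : ℤ) := by
    rw [twoPt, map_add, Divisor.degree_single, Divisor.degree_single, pk.deg_one, pk.deg_one,
      Nat.cast_one, mul_one]
    ring
  -- dimensions
  have hlOo := hcoo (Finsupp.single Qoo (n : ℤ)) (by rw [hdegOo]; exact hncoo)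
  have hl0 := hc0 (Finsupp.single Q0 (n : ℤ)) (by rw [hdeg0]; exact hnc0)
  have hl := hc (twoPt Poo P0 n) (by rw [hdeg]; omega)
  rw [hdegOo] at hlOo
  rw [hdeg0] at hl0
  rw [hdeg] at hl
  have hglue := gluedSpace_finrank_le G pkOo pk0 (Finsupp.single Qoo (n : ℤ))
    (Finsupp.single Q0 (n : ℤ)) (hDoo n) (hD0 n)
    (hn₂ n hn2 (Finsupp.single Q0 (n : ℤ)) (hD0 n) (hDoo n))
  rw [hlOo, hl0] at hglue
  have hle : Module.finrank (kRes A)
        (gluedSpace G (Finsupp.single Qoo (n : ℤ)) (Finsupp.single Q0 (n : ℤ)))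
      ≤ Module.finrank Qb (riemannRochSpace (twoPt Poo P0 n)) := by
    have hNC' : (g : ℤ) + 1 ≤ (goo : ℤ) + (g0 : ℤ) + (Nat.card ι : ℤ) := by exact_mod_cast hNC
    have : (Module.finrank (kRes A)
        (gluedSpace G (Finsupp.single Qoo (n : ℤ)) (Finsupp.single Q0 (n : ℤ))) : ℤ)
        ≤ (Module.finrank Qb (riemannRochSpace (twoPt Poo P0 n)) : ℤ) := by
      rw [hglue, hl]
      omega
    exact_mod_cast this
  haveI := pkOo.finite (Finsupp.single Qoo (n : ℤ))
  haveI := pk0.finite (Finsupp.single Q0 (n : ℤ))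
  haveI hfinV : Module.Finite (kRes A)
      (gluedSpace G (Finsupp.single Qoo (n : ℤ)) (Finsupp.single Q0 (n : ℤ))) := by
    rw [gluedSpace_eq_map G pkOo.deg_one pk0.deg_one _ _ (hDoo n) (hD0 n)]
    infer_instance
  -- the family of (PAIR-SEMI)
  obtain ⟨woo, w0, heq, hunr, hrr, hli⟩ := hPS n
  have hw0mem : ∀ i, ((woo i : G.Voo) : FLb N) ∈ G.V0 := fun i => by
    rw [heq i]
    exact (w0 i).2
  have hz : ∀ i, (G.redOo (woo i), G.red0 (w0 i))
      ∈ gluedSpace G (Finsupp.single Qoo (n : ℤ)) (Finsupp.single Q0 (n : ℤ)) := by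
    intro i
    have h1 := H.contain hp hA pk.principal (twoPt_node G hPoo hP0 n) (woo i).2 (hw0mem i)
      (hrr i)
    rw [pushOo_two_points G hPoo hP0 n, pushZero_two_points G hPoo hP0 n] at h1
    have e0 : (⟨((woo i : G.Voo) : FLb N), hw0mem i⟩ : G.V0) = w0 i := Subtype.ext (heq i)
    rw [e0] at h1
    exact h1
  obtain ⟨cc, hcc⟩ := la_exists_coeff
    (gluedSpace G (Finsupp.single Qoo (n : ℤ)) (Finsupp.single Q0 (n : ℤ)))
    (fun i => (G.redOo (woo i), G.red0 (w0 i))) hz hli hle (x, y) ⟨hx, hy, hxy⟩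
  -- lift the coefficients
  choose a ha hres using fun i => Fermat.Agent.H19.FF.unrResidueSurj p A hp hA (cc i)
  have haOo : ∀ i, algebraMap Qb (FLb N) ((a i : A) : Qb) ∈ G.Voo := fun i =>
    (H.const_oo _).2 (a i).2
  have ha0 : ∀ i, algebraMap Qb (FLb N) ((a i : A) : Qb) ∈ G.V0 := fun i =>
    (H.const_zero _).2 (a i).2
  set uoo : G.Voo := ∑ i, (⟨_, haOo i⟩ : G.Voo) * woo i with huoo
  set u0 : G.V0 := ∑ i, (⟨_, ha0 i⟩ : G.V0) * w0 i with hu0
  have ecoeOo : ((uoo : G.Voo) : FLb N)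
      = ∑ i, algebraMap Qb (FLb N) ((a i : A) : Qb) * ((woo i : G.Voo) : FLb N) := by
    have h1 : G.Voo.subtype uoo = ∑ i, G.Voo.subtype ((⟨_, haOo i⟩ : G.Voo) * woo i) := by
      rw [huoo, map_sum]
    exact h1
  have ecoe0 : ((u0 : G.V0) : FLb N)
      = ∑ i, algebraMap Qb (FLb N) ((a i : A) : Qb) * ((woo i : G.Voo) : FLb N) := by
    have h1 : G.V0.subtype u0 = ∑ i, G.V0.subtype ((⟨_, ha0 i⟩ : G.V0) * w0 i) := by
      rw [hu0, map_sum]
    refine h1.trans (Finset.sum_congr rfl fun i _ => ?_)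
    show algebraMap Qb (FLb N) ((a i : A) : Qb) * ((w0 i : G.V0) : FLb N) = _
    rw [heq i]
  have hu0mem : ((uoo : G.Voo) : FLb N) ∈ G.V0 := by
    rw [ecoeOo, ← ecoe0]
    exact u0.2
  have eu0 : (⟨((uoo : G.Voo) : FLb N), hu0mem⟩ : G.V0) = u0 :=
    Subtype.ext (ecoeOo.trans ecoe0.symm)
  refine ⟨(uoo : FLb N), uoo.2, hu0mem, ?_, ?_, ?_, ?_⟩
  · -- inertia-fixed
    rw [ecoeOo]
    exact isUnrFn_sum _ _ fun i _ => isUnrFn_const_mul (mem_unrInt.1 (ha i)).2 (hunr i)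
  · -- in `L(n P∞ + n P0)`
    rw [ecoeOo]
    refine Submodule.sum_mem _ fun i _ => ?_
    rw [← Algebra.smul_def]
    exact Submodule.smul_mem _ _ (hrr i)
  · -- the reduction at `∞`
    have h1 : G.redOo uoo = ∑ i, cc i • G.redOo (woo i) := by
      rw [huoo, map_sum]
      refine Finset.sum_congr rfl fun i _ => ?_
      rw [map_mul, H.red_const_oo (a i) (haOo i), hres i, Algebra.smul_def]
    have h2 := congrArg Prod.fst hcc
    rw [Prod.fst_sum] at h2
    exact h1.trans h2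
  · -- the reduction at `0`
    rw [eu0]
    have h1 : G.red0 u0 = ∑ i, cc i • G.red0 (w0 i) := by
      rw [hu0, map_sum]
      refine Finset.sum_congr rfl fun i _ => ?_
      rw [map_mul, H.red_const_zero (a i) (ha0 i), hres i, Algebra.smul_def]
    have h2 := congrArg Prod.snd hcc
    rw [Prod.snd_sum] at h2
    exact h1.trans h2

end Fermat.Agent.H99.ORD

end
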