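import Fermat.Agent.H41.ORD.DvrInterfaces
import Fermat.Agent.H32.ORD.NmTotIdeal

/-!
# P-ORD, block B1, row 1158 [DVR], part (F3) of findings #579 : NON-NODE centres (helper99)

Generic component `(V, red)` of helper84 (`CompSoft`), `P` a place of `F = FLb N`,
`B̄ = nmChart N A (nmY A P)`, `O = red (B̄_𝔪) = {z | GenLocal A V red P z}`, the DISC of `P` =
the places `P'` with `nmCentre A P' = nmCentre A P`.

`FnnHyp A V red P` bundles what is needed at a centre lying on the component `(V, red)` ONLY: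
the soft facts, the surjectivity of `red`, `𝔮 ∩ B̄ ⊆ 𝔐_P`, LOCAL HARTOGS for the elements of `V`
(no condition on the other component), PLACE GENERATORS on the disc, finiteness of the divisors.

* `fnn_genFactor : FnnHyp A V red P → GenFactor A V red P` : the factorisation
  `Fkˣ = Oˣ × τ ^ ℤ`, `τ = red t`, `t` a normalised place generator at `P`;
* `nmFactorOo_nonnode`, `nmFactorZero_nonnode` : the two instances for `X₀(M p)`, from [HART],
  [PG], the soft facts and `HasPrincipalDivisors` : `GenFactor` at the centres which lie on `C_∞`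
  and not on `C_0` (resp. on `C_0` and not on `C_∞`); this covers the cusps;
* `nmDvrOo_nonnode`, `nmDvrZero_nonnode` : the conclusions of [DVR] at these centres.

Proof.  `τ ∈ O` by Hartogs; `τ⁻¹ ∉ O` since `s t` lies in the centre.  For `z = red u ≠ 0`,
induction on a finite set containing the places of the disc where `ord u ≠ 0` : if `P₁` is one
of them, `t₁` a normalised generator at `P₁`, `a = ord_{P₁} u`, then `u t₁ ^ (-a)` has one place
less, and `red t₁ = ε₁ τ`, `ε₁ ∈ Oˣ`, because `(t₁ - t₁(P)) / t` and `(t - t(P₁)) / t₁` lie in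
`V`, have no pole on the disc, and `t₁(P), t(P₁) ∈ 𝔪_A`.
-/

set_option autoImplicit false
set_option linter.unusedSectionVars false
set_option linter.style.haveILetI false
set_option linter.unusedVariables false

noncomputable section

open AlgebraicCurve ModularCurve

namespace Fermat.Agent.H99.ORD

open Fermat.Agent.H72.FF Fermat.Agent.H18.ORD Fermat.Agent.H84.ORD Fermat.Agent.H41.ORD
  Fermat.Agent.H66

section Gen

variable {N : ℕ} [NeZero N] {A : ValuationSubring Qb} {Fk : Type} [Field Fk]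
  [Algebra (kRes A) Fk] {V : Subring (FLb N)} {red : V →+* Fk}

/-- **The hypotheses of the factorisation at a centre lying on the component `(V, red)` only.** -/
structure FnnHyp (A : ValuationSubring Qb) [Algebra (kRes A) Fk] (V : Subring (FLb N))
    (red : V →+* Fk) (P : Place Qb (FLb N)) : Prop where
  soft : CompSoft A V red
  surj : Function.Surjective red
  ideal : ∀ f ∈ nmChart N A (nmY A P), ∀ h : f ∈ V, red ⟨f, h⟩ = 0 → f ∈ nmMax A P
  hart : ∀ g ∈ V,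
    (∀ P' : Place Qb (FLb N), nmCentre A P' = nmCentre A P → g = 0 ∨ 0 ≤ P'.ord g) →
    ∃ s ∈ nmChart N A (nmY A P), s ∉ nmMax A P ∧ s * g ∈ nmChart N A (nmY A P)
  gen : ∀ P₁ : Place Qb (FLb N), nmCentre A P₁ = nmCentre A P → ∃ t : FLb N, P₁.ord t = 1 ∧
    ∀ P' : Place Qb (FLb N), nmCentre A P' = nmCentre A P → P' ≠ P₁ → P'.ord t = 0
  fin : ∀ f : FLb N, f ≠ 0 → ∃ T : Finset (Place Qb (FLb N)),
    ∀ P' : Place Qb (FLb N), P'.ord f ≠ 0 → P' ∈ T

/-- `t` is a NORMALISED GENERATOR at the place `P₁` of the disc of `P` : `t ∈ V`, `red t ≠ 0`,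
a simple zero at `P₁`, no other zero or pole on the disc. -/
structure FnnGen (A : ValuationSubring Qb) [Algebra (kRes A) Fk] (V : Subring (FLb N))
    (red : V →+* Fk) (P P₁ : Place Qb (FLb N)) (t : FLb N) : Prop where
  mem : t ∈ V
  red_ne : ∀ h : t ∈ V, red ⟨t, h⟩ ≠ 0
  ord_one : P₁.ord t = 1
  ord_zero : ∀ P' : Place Qb (FLb N), nmCentre A P' = nmCentre A P → P' ≠ P₁ → P'.ord t = 0

/-! ### Soft lemmas -/

theorem fnn_coe_ne_zero {u : V} (hu : red u ≠ 0) : (u : FLb N) ≠ 0 := by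
  intro h0
  apply hu
  have : u = 0 := Subtype.ext h0
  rw [this, map_zero]

theorem fnn_red_inv (H : CompSoft A V red) (u : V) (hu : red u ≠ 0) :
    red ⟨(u : FLb N)⁻¹, H.inv u hu⟩ = (red u)⁻¹ := by
  have hu0 : (u : FLb N) ≠ 0 := fnn_coe_ne_zero hu
  have e : red u * red ⟨(u : FLb N)⁻¹, H.inv u hu⟩ = 1 := by
    rw [← map_mul, ← map_one red]
    congr 1
    apply Subtype.ext
    show (u : FLb N) * (u : FLb N)⁻¹ = 1
    exact mul_inv_cancel₀ hu0
  exact eq_inv_of_mul_eq_one_right e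

theorem fnn_red_zpow (H : CompSoft A V red) (t : V) (ht : red t ≠ 0) (a : ℤ) :
    ∃ h : (t : FLb N) ^ a ∈ V, red ⟨(t : FLb N) ^ a, h⟩ = (red t) ^ a := by
  have hpow : ∀ n : ℕ, ∃ h : (t : FLb N) ^ n ∈ V, red ⟨(t : FLb N) ^ n, h⟩ = (red t) ^ n := by
    intro n
    refine ⟨V.pow_mem t.2 n, ?_⟩
    have e : (⟨(t : FLb N) ^ n, V.pow_mem t.2 n⟩ : V) = t ^ n := rfl
    rw [e, map_pow]
  rcases a with n | n
  · obtain ⟨h, e⟩ := hpow n
    have e1 : (t : FLb N) ^ (Int.ofNat n) = (t : FLb N) ^ n := zpow_natCast _ _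
    have e2 : (red t) ^ (Int.ofNat n) = (red t) ^ n := zpow_natCast _ _
    refine ⟨by rw [e1]; exact h, ?_⟩
    rw [e2, ← e]
    exact congrArg red (Subtype.ext e1)
  · obtain ⟨h, e⟩ := hpow (n + 1)
    have hne : red ⟨(t : FLb N) ^ (n + 1), h⟩ ≠ 0 := by
      rw [e]
      exact pow_ne_zero _ ht
    have e1 : (t : FLb N) ^ (Int.negSucc n) = ((t : FLb N) ^ (n + 1))⁻¹ := zpow_negSucc _ _
    have e2 : (red t) ^ (Int.negSucc n) = ((red t) ^ (n + 1))⁻¹ := zpow_negSucc _ _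
    have h3 := fnn_red_inv H ⟨(t : FLb N) ^ (n + 1), h⟩ hne
    refine ⟨by rw [e1]; exact H.inv ⟨(t : FLb N) ^ (n + 1), h⟩ hne, ?_⟩
    rw [e2, ← e, ← h3]
    exact congrArg red (Subtype.ext e1)

/-- the units of `O` are stable under `zpow` -/
theorem fnn_unit_zpow (H : CompSoft A V red) (P : Place Qb (FLb N)) {ε : Fk}
    (hε : GenLocal A V red P ε) (hεi : GenLocal A V red P ε⁻¹) (a : ℤ) :
    GenLocal A V red P (ε ^ a) ∧ GenLocal A V red P (ε ^ a)⁻¹ := by
  rcases a with n | n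
  · have e1 : ε ^ (Int.ofNat n) = ε ^ n := zpow_natCast _ _
    rw [e1, ← inv_pow]
    exact ⟨genLocal_pow P H hε n, genLocal_pow P H hεi n⟩
  · have e1 : ε ^ (Int.negSucc n) = (ε ^ (n + 1))⁻¹ := zpow_negSucc _ _
    rw [e1, inv_inv, ← inv_pow]
    exact ⟨genLocal_pow P H hεi (n + 1), genLocal_pow P H hε (n + 1)⟩

theorem fnn_unit_mul (H : CompSoft A V red) (P : Place Qb (FLb N)) {ε ε' : Fk}
    (hε : GenLocal A V red P ε) (hεi : GenLocal A V red P ε⁻¹)
    (hε' : GenLocal A V red P ε') (hεi' : GenLocal A V red P ε'⁻¹) :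
    GenLocal A V red P (ε * ε') ∧ GenLocal A V red P (ε * ε')⁻¹ := by
  rw [mul_inv]
  exact ⟨genLocal_mul P H hε hε', genLocal_mul P H hεi hεi'⟩

/-! ### Hartogs : no pole on the disc gives a local element -/

variable {P : Place Qb (FLb N)}

/-- `g ∈ V` without pole on the disc : `red g ∈ O`. -/
theorem fnn_local_of_nopole (h : FnnHyp A V red P) {g : FLb N} (hg : g ∈ V)
    (hpole : ∀ P' : Place Qb (FLb N), nmCentre A P' = nmCentre A P → g = 0 ∨ 0 ≤ P'.ord g) :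
    GenLocal A V red P (red ⟨g, hg⟩) := by
  obtain ⟨s, hsB, hsm, hsgB⟩ := h.hart g hg hpole
  have hsV : s ∈ V := h.soft.chart_le P hsB
  refine ⟨s * g, s, V.mul_mem hsV hg, hsV, hsgB, hsB, hsm, ?_⟩
  have e : (⟨s * g, V.mul_mem hsV hg⟩ : V) = ⟨g, hg⟩ * ⟨s, hsV⟩ := by
    apply Subtype.ext
    show s * g = g * s
    ring
  rw [e, map_mul]

/-- `g ∈ V`, `red g ≠ 0`, without zero or pole on the disc : `red g ∈ Oˣ`. -/
theorem fnn_unit_of_ord_zero (h : FnnHyp A V red P) {g : FLb N} (hg : g ∈ V)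
    (hred : red ⟨g, hg⟩ ≠ 0)
    (hord : ∀ P' : Place Qb (FLb N), nmCentre A P' = nmCentre A P → P'.ord g = 0) :
    GenLocal A V red P (red ⟨g, hg⟩) ∧ GenLocal A V red P (red ⟨g, hg⟩)⁻¹ := by
  refine ⟨fnn_local_of_nopole h hg (fun P' hP' => Or.inr (hord P' hP').ge), ?_⟩
  rw [← fnn_red_inv h.soft ⟨g, hg⟩ hred]
  refine fnn_local_of_nopole h _ (fun P' hP' => Or.inr ?_)
  show 0 ≤ P'.ord g⁻¹
  rw [Place.ord_inv, hord P' hP', neg_zero]

/-- a function of `V` without pole on the disc, with a zero at a place `P₁` of the disc, has a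
value in `𝔪_A` at every place `P₂` of the disc -/
theorem fnn_value (h : FnnHyp A V red P) {P₁ P₂ : Place Qb (FLb N)}
    (h₁ : nmCentre A P₁ = nmCentre A P) (h₂ : nmCentre A P₂ = nmCentre A P)
    {t : FLb N} (ht : t ∈ V)
    (hpole : ∀ P' : Place Qb (FLb N), nmCentre A P' = nmCentre A P → t = 0 ∨ 0 ≤ P'.ord t)
    (hzero : 1 ≤ P₁.ord t) : ∃ c ∈ A.nonunits, HasValue P₂ t c := by
  obtain ⟨s, hsB, hsm, hstB⟩ := h.hart t ht hpole
  have hY₁ : nmY A P₁ = nmY A P :=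
    Fermat.Agent.H32.ORD.nmY_eq_of_centre_eq P P₁ (h.soft.deg P) (h.soft.deg P₁) h₁
  have hY₂ : nmY A P₂ = nmY A P :=
    Fermat.Agent.H32.ORD.nmY_eq_of_centre_eq P P₂ (h.soft.deg P) (h.soft.deg P₂) h₂
  -- `s t` lies in the centre of `P₁`
  have hsB₁ : s ∈ nmChart N A (nmY A P₁) := by rw [hY₁]; exact hsB
  have hstB₁ : s * t ∈ nmChart N A (nmY A P₁) := by rw [hY₁]; exact hstB
  obtain ⟨e₁, he₁A, he₁⟩ := nmChart_value P₁ (h.soft.deg P₁) hsB₁
  have ht₁ : HasValue P₁ t 0 := Or.inr (by rw [map_zero, sub_zero]; exact hzero)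
  have hst₁ : s * t ∈ nmCentre A P₁ := by
    refine ⟨hstB₁, e₁ * 0, ?_, nm_hasValue_mul P₁ he₁ ht₁⟩
    rw [mul_zero]
    exact (ValuationSubring.mem_nonunits_iff _).2 (by simp)
  rw [h₁, ← h₂] at hst₁
  obtain ⟨-, d, hd, hdv⟩ := hst₁
  -- the value of `s` at `P₂` is a unit of `A`
  have hsB₂ : s ∈ nmChart N A (nmY A P₂) := by rw [hY₂]; exact hsB
  obtain ⟨e, heA, he⟩ := nmChart_value P₂ (h.soft.deg P₂) hsB₂
  have heu : e ∉ A.nonunits := by
    intro hnu
    have hs₂ : s ∈ nmCentre A P₂ := ⟨hsB₂, e, hnu, he⟩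
    rw [h₂] at hs₂
    exact hsm hs₂.2
  have he0 : e ≠ 0 := by
    intro h0
    apply heu
    rw [h0]
    exact (ValuationSubring.mem_nonunits_iff _).2 (by simp)
  have hev : A.valuation e = 1 := by
    rw [ValuationSubring.mem_nonunits_iff, not_lt] at heu
    exact le_antisymm ((ValuationSubring.valuation_le_one_iff _ _).2 heA) heu
  have hs0 : s ≠ 0 := by
    intro h0
    rw [h0] at he
    have h00 : HasValue P₂ (0 : FLb N) 0 := by
      have := nm_hasValue_const P₂ (N := N) 0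
      rwa [map_zero] at this
    exact he0 (nm_hasValue_unique P₂ he h00)
  refine ⟨e⁻¹ * d, ?_, ?_⟩
  · rw [ValuationSubring.mem_nonunits_iff] at hd ⊢
    rw [map_mul, map_inv₀, hev, inv_one, one_mul]
    exact hd
  · have := nm_hasValue_mul P₂ (nm_hasValue_inv P₂ he he0) hdv
    rwa [inv_mul_cancel_left₀ hs0] at this

/-! ### Normalised generators -/

theorem FnnGen.ne_zero {P₁ : Place Qb (FLb N)} {t : FLb N} (g : FnnGen A V red P P₁ t) :
    t ≠ 0 := by
  intro h0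
  have := g.ord_one
  rw [h0, Place.ord_zero] at this
  exact zero_ne_one this

theorem FnnGen.nopole {P₁ : Place Qb (FLb N)} {t : FLb N} (g : FnnGen A V red P P₁ t)
    (P' : Place Qb (FLb N)) (hP' : nmCentre A P' = nmCentre A P) : t = 0 ∨ 0 ≤ P'.ord t := by
  right
  by_cases hP : P' = P₁
  · rw [hP, g.ord_one]
    exact zero_le_one
  · rw [g.ord_zero P' hP' hP]

/-- every place of the disc has a normalised generator -/
theorem fnn_exists_gen (h : FnnHyp A V red P) (P₁ : Place Qb (FLb N))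
    (h₁ : nmCentre A P₁ = nmCentre A P) : ∃ t : FLb N, FnnGen A V red P P₁ t := by
  obtain ⟨t₀, ht₀, ht₀'⟩ := h.gen P₁ h₁
  have ht₀0 : t₀ ≠ 0 := by
    intro h0
    rw [h0, Place.ord_zero] at ht₀
    exact zero_ne_one ht₀
  obtain ⟨c, u, hc, hu, e⟩ := h.soft.norm t₀ ht₀0
  have hc0 : algebraMap Qb (FLb N) c ≠ 0 := by
    rw [Ne, map_eq_zero_iff _ (algebraMap Qb (FLb N)).injective]
    exact hc
  have hu0 : (u : FLb N) ≠ 0 := fnn_coe_ne_zero hu
  have hord : ∀ P' : Place Qb (FLb N), P'.ord t₀ = P'.ord (u : FLb N) := by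
    intro P'
    rw [e, Place.ord_mul P' hc0 hu0, Fermat.Agent.H23.ord_algebraMap, zero_add]
  refine ⟨(u : FLb N), u.2, fun _ => hu, ?_, ?_⟩
  · rw [← hord]
    exact ht₀
  · intro P' hP' hne
    rw [← hord]
    exact ht₀' P' hP' hne

/-- **DIVISION by a generator** : if `t₁ ∈ V` has no pole on the disc and a zero at a place of
the disc, and `t₂` is a normalised generator at a place `P₂` of the disc, then
`red t₁ / red t₂ ∈ O`. -/
theorem fnn_div (h : FnnHyp A V red P) {P₁ P₂ : Place Qb (FLb N)}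
    (h₁ : nmCentre A P₁ = nmCentre A P) (h₂ : nmCentre A P₂ = nmCentre A P)
    {t₁ t₂ : FLb N} (ht₁ : t₁ ∈ V)
    (hpole : ∀ P' : Place Qb (FLb N), nmCentre A P' = nmCentre A P → t₁ = 0 ∨ 0 ≤ P'.ord t₁)
    (hzero : 1 ≤ P₁.ord t₁) (g₂ : FnnGen A V red P P₂ t₂) :
    GenLocal A V red P (red ⟨t₁, ht₁⟩ * (red ⟨t₂, g₂.mem⟩)⁻¹) := by
  obtain ⟨c, hc, hcv⟩ := fnn_value h h₁ h₂ ht₁ hpole hzero
  have hcA : c ∈ A := ValuationSubring.nonunits_subset hc
  have hcV : algebraMap Qb (FLb N) c ∈ V := h.soft.const_mem c hcA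
  have hiV : t₂⁻¹ ∈ V := h.soft.inv ⟨t₂, g₂.mem⟩ (g₂.red_ne _)
  have hgV : (t₁ - algebraMap Qb (FLb N) c) * t₂⁻¹ ∈ V := V.mul_mem (V.sub_mem ht₁ hcV) hiV
  have hred : red ⟨(t₁ - algebraMap Qb (FLb N) c) * t₂⁻¹, hgV⟩ =
      red ⟨t₁, ht₁⟩ * (red ⟨t₂, g₂.mem⟩)⁻¹ := by
    have e : (⟨(t₁ - algebraMap Qb (FLb N) c) * t₂⁻¹, hgV⟩ : V) =
        (⟨t₁, ht₁⟩ - ⟨algebraMap Qb (FLb N) c, hcV⟩) * ⟨t₂⁻¹, hiV⟩ := rfl
    rw [e, map_mul, map_sub, h.soft.red_const_nonunit hc, sub_zero,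
      fnn_red_inv h.soft ⟨t₂, g₂.mem⟩ (g₂.red_ne _)]
  rw [← hred]
  refine fnn_local_of_nopole h hgV (fun P' hP' => ?_)
  by_cases h0 : t₁ - algebraMap Qb (FLb N) c = 0
  · left
    rw [h0, zero_mul]
  · right
    have hi0 : t₂⁻¹ ≠ 0 := inv_ne_zero g₂.ne_zero
    rw [Place.ord_mul P' h0 hi0, Place.ord_inv]
    by_cases hP : P' = P₂
    · rw [hP, g₂.ord_one]
      have h1 : 1 ≤ P₂.ord (t₁ - algebraMap Qb (FLb N) c) := by
        rcases hcv with hcv | hcv
        · exact absurd (sub_eq_zero.2 hcv) h0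
        · exact hcv
      omega
    · rw [g₂.ord_zero P' hP' hP]
      have h1 : 0 ≤ P'.ord (t₁ + -algebraMap Qb (FLb N) c) := by
        refine Fermat.Agent.H23.ord_add_ge P' ?_ 0 (hpole P' hP') (Or.inr ?_)
        · rwa [← sub_eq_add_neg]
        · rw [Fermat.Agent.H23.ord_neg, Fermat.Agent.H23.ord_algebraMap]
      rw [← sub_eq_add_neg] at h1
      omega

/-- two normalised generators on the disc differ by a unit of `O` -/
theorem fnn_gen_unit (h : FnnHyp A V red P) {P₁ P₂ : Place Qb (FLb N)}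
    (h₁ : nmCentre A P₁ = nmCentre A P) (h₂ : nmCentre A P₂ = nmCentre A P)
    {t₁ t₂ : FLb N} (g₁ : FnnGen A V red P P₁ t₁) (g₂ : FnnGen A V red P P₂ t₂) :
    GenLocal A V red P (red ⟨t₁, g₁.mem⟩ * (red ⟨t₂, g₂.mem⟩)⁻¹) ∧
      GenLocal A V red P (red ⟨t₁, g₁.mem⟩ * (red ⟨t₂, g₂.mem⟩)⁻¹)⁻¹ := by
  refine ⟨fnn_div h h₁ h₂ g₁.mem g₁.nopole g₁.ord_one.ge g₂, ?_⟩
  have e : (red ⟨t₁, g₁.mem⟩ * (red ⟨t₂, g₂.mem⟩)⁻¹)⁻¹ =
      red ⟨t₂, g₂.mem⟩ * (red ⟨t₁, g₁.mem⟩)⁻¹ := by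
    rw [mul_inv, inv_inv, mul_comm]
  rw [e]
  exact fnn_div h h₂ h₁ g₂.mem g₂.nopole g₂.ord_one.ge g₁

/-! ### The factorisation -/

/-- the induction : `red u ∈ Oˣ τ ^ ℤ` for `u ∈ V`, `red u ≠ 0` -/
theorem fnn_factor_aux (h : FnnHyp A V red P) {t : FLb N} (gt : FnnGen A V red P P t)
    (T : Finset (Place Qb (FLb N))) :
    ∀ (u : FLb N) (hu : u ∈ V), red ⟨u, hu⟩ ≠ 0 →
      (∀ P' : Place Qb (FLb N), nmCentre A P' = nmCentre A P → P'.ord u ≠ 0 → P' ∈ T) →
      ∃ (n : ℤ) (ε : Fk), GenLocal A V red P ε ∧ GenLocal A V red P ε⁻¹ ∧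
        red ⟨u, hu⟩ = ε * (red ⟨t, gt.mem⟩) ^ n := by
  classical
  induction T using Finset.induction_on with
  | empty =>
    intro u hu hred hsupp
    have hord : ∀ P' : Place Qb (FLb N), nmCentre A P' = nmCentre A P → P'.ord u = 0 := by
      intro P' hP'
      by_contra hne
      exact absurd (hsupp P' hP' hne) (Finset.notMem_empty _)
    obtain ⟨h1, h2⟩ := fnn_unit_of_ord_zero h hu hred hord
    exact ⟨0, _, h1, h2, by rw [zpow_zero, mul_one]⟩
  | insert P₁ T' hP₁ ih =>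
    intro u hu hred hsupp
    by_cases hc : nmCentre A P₁ = nmCentre A P
    · obtain ⟨t₁, g₁⟩ := fnn_exists_gen h P₁ hc
      have hτ0 : red ⟨t, gt.mem⟩ ≠ 0 := gt.red_ne _
      have hτ₁0 : red ⟨t₁, g₁.mem⟩ ≠ 0 := g₁.red_ne _
      have hu0 : u ≠ 0 := fnn_coe_ne_zero (u := ⟨u, hu⟩) hred
      obtain ⟨hz, hzred⟩ := fnn_red_zpow h.soft ⟨t₁, g₁.mem⟩ hτ₁0 (-(P₁.ord u))
      have hz' : t₁ ^ (-(P₁.ord u)) ∈ V := hz
      have hu₁ : u * t₁ ^ (-(P₁.ord u)) ∈ V := V.mul_mem hu hz'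
      have hred₁ : red ⟨u * t₁ ^ (-(P₁.ord u)), hu₁⟩ =
          red ⟨u, hu⟩ * (red ⟨t₁, g₁.mem⟩) ^ (-(P₁.ord u)) := by
        have e : (⟨u * t₁ ^ (-(P₁.ord u)), hu₁⟩ : V) = ⟨u, hu⟩ * ⟨t₁ ^ (-(P₁.ord u)), hz'⟩ := rfl
        rw [e, map_mul]
        congr 1
      have hne₁ : red ⟨u * t₁ ^ (-(P₁.ord u)), hu₁⟩ ≠ 0 := by
        rw [hred₁]
        exact mul_ne_zero hred (zpow_ne_zero _ hτ₁0)
      have hzp0 : t₁ ^ (-(P₁.ord u)) ≠ 0 := zpow_ne_zero _ g₁.ne_zero
      have hsupp₁ : ∀ P' : Place Qb (FLb N), nmCentre A P' = nmCentre A P →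
          P'.ord (u * t₁ ^ (-(P₁.ord u))) ≠ 0 → P' ∈ T' := by
        intro P' hP' hne
        rw [Place.ord_mul P' hu0 hzp0, Place.ord_zpow] at hne
        by_cases hPP : P' = P₁
        · exfalso
          apply hne
          rw [hPP, g₁.ord_one]
          ring
        · rw [g₁.ord_zero P' hP' hPP, mul_zero, add_zero] at hne
          rcases Finset.mem_insert.1 (hsupp P' hP' hne) with h1 | h1
          · exact absurd h1 hPP
          · exact h1
      obtain ⟨n, ε, hε, hεi, e⟩ := ih (u * t₁ ^ (-(P₁.ord u))) hu₁ hne₁ hsupp₁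
      obtain ⟨hε₁, hεi₁⟩ := fnn_gen_unit h hc rfl g₁ gt
      obtain ⟨hεa, hεai⟩ := fnn_unit_zpow h.soft P hε₁ hεi₁ (P₁.ord u)
      obtain ⟨hfin, hfini⟩ := fnn_unit_mul h.soft P hε hεi hεa hεai
      refine ⟨n + P₁.ord u, _, hfin, hfini, ?_⟩
      have e1 : red ⟨u, hu⟩ =
          red ⟨u * t₁ ^ (-(P₁.ord u)), hu₁⟩ * (red ⟨t₁, g₁.mem⟩) ^ (P₁.ord u) := by
        rw [hred₁, mul_assoc, ← zpow_add₀ hτ₁0, neg_add_cancel, zpow_zero, mul_one]
      have e2 : red ⟨t₁, g₁.mem⟩ =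
          (red ⟨t₁, g₁.mem⟩ * (red ⟨t, gt.mem⟩)⁻¹) * red ⟨t, gt.mem⟩ := by
        rw [mul_assoc, inv_mul_cancel₀ hτ0, mul_one]
      rw [e1, e]
      conv_lhs => rw [e2]
      rw [mul_zpow, zpow_add₀ hτ0]
      ring
    · exact ih u hu hred (fun P' hP' hne => by
        rcases Finset.mem_insert.1 (hsupp P' hP' hne) with h1 | h1
        · exact absurd (h1 ▸ hP') hc
        · exact h1)

/-- **THE FACTORISATION at a centre lying on the component `(V, red)` only.** -/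
theorem fnn_genFactor (h : FnnHyp A V red P) : GenFactor A V red P := by
  obtain ⟨t, gt⟩ := fnn_exists_gen h P rfl
  have hτ0 : red ⟨t, gt.mem⟩ ≠ 0 := gt.red_ne _
  refine ⟨red ⟨t, gt.mem⟩, fnn_local_of_nopole h gt.mem gt.nopole, ?_, ?_⟩
  · -- `τ⁻¹ ∉ O`
    intro hτi
    obtain ⟨s, hsB, hsm, hstB⟩ := h.hart t gt.mem gt.nopole
    have hsV : s ∈ V := h.soft.chart_le P hsB
    have hstV : s * t ∈ V := V.mul_mem hsV gt.mem
    have hs0 : red ⟨s, hsV⟩ ≠ 0 := fun h0 => hsm (h.ideal s hsB hsV h0)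
    obtain ⟨e₁, he₁A, he₁⟩ := nmChart_value P (h.soft.deg P) hsB
    have ht₁ : HasValue P t 0 := Or.inr (by rw [map_zero, sub_zero]; exact gt.ord_one.ge)
    have hcen : s * t ∈ nmCentre A P := by
      refine ⟨hstB, e₁ * 0, ?_, nm_hasValue_mul P he₁ ht₁⟩
      rw [mul_zero]
      exact (ValuationSubring.mem_nonunits_iff _).2 (by simp)
    have hredst : red ⟨s * t, hstV⟩ = red ⟨s, hsV⟩ * red ⟨t, gt.mem⟩ := by
      have e : (⟨s * t, hstV⟩ : V) = ⟨s, hsV⟩ * ⟨t, gt.mem⟩ := rfl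
      rw [e, map_mul]
    have hne : red ⟨s * t, hstV⟩ ≠ 0 := by
      rw [hredst]
      exact mul_ne_zero hs0 hτ0
    apply genLocal_centre_not_unit P h.soft h.ideal hcen hstV hne
    have hsi : GenLocal A V red P (red ⟨s, hsV⟩)⁻¹ := by
      refine ⟨1, s, V.one_mem, hsV, (nmChart N A _).one_mem, hsB, hsm, ?_⟩
      have e : (⟨1, V.one_mem⟩ : V) = 1 := rfl
      rw [e, map_one, inv_mul_cancel₀ hs0]
    rw [hredst, mul_inv]
    exact genLocal_mul P h.soft hsi hτi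
  · intro z hz
    obtain ⟨u, rfl⟩ := h.surj z
    have hu0 : (u : FLb N) ≠ 0 := fnn_coe_ne_zero hz
    obtain ⟨T, hT⟩ := h.fin (u : FLb N) hu0
    obtain ⟨n, ε, hε, hεi, e⟩ := fnn_factor_aux h gt T (u : FLb N) u.2 hz
      (fun P' _ hne => hT P' hne)
    exact ⟨n, ε, hε, hεi, e⟩

end Gen

/-! ### The instances for `X₀(M p)` -/

section Inst

variable {M p : ℕ} [NeZero M] [NeZero p]

theorem fnn_fin_of_principal {N : ℕ} (hD : HasPrincipalDivisors Qb (FLb N)) (f : FLb N)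
    (hf : f ≠ 0) : ∃ T : Finset (Place Qb (FLb N)),
      ∀ P' : Place Qb (FLb N), P'.ord f ≠ 0 → P' ∈ T := by
  obtain ⟨D, hDv, -⟩ := hD.exists_divisor f hf
  refine ⟨D.support, fun P' hne => ?_⟩
  rw [Finsupp.mem_support_iff, hDv]
  exact hne

/-- the hypotheses of the factorisation at a centre on `C_∞` and not on `C_0` -/
theorem fnnHyp_oo (hH : NmHartogsStatement M p) (hG : NmPlaceGenStatement M p)
    (hS : NmSoftStatement M p) (hD : HasPrincipalDivisors Qb (FLb (M * p)))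
    (A : ValuationSubring Qb) (h : NmSetup M p A) (P : Place Qb (FLb (M * p)))
    (hoo : NmIdealOo M p A P) (hz : ¬ NmIdealZero M p h.cop A P) :
    FnnHyp A (gaussOBar (M * p) A) (nmRedOo (M * p) A) P where
  soft := (nmBase_of_soft hS h).oo
  surj := nmRedOo_surjective (M * p) A
  ideal := hoo
  hart := fun g hg hpole => hH A h P g (fun _ => hg) (fun h0 => absurd h0 hz) hpole
  gen := fun P₁ h₁ => by
    obtain ⟨t, ht, ht'⟩ := hG A h P₁
    exact ⟨t, ht, fun P' hP' hne => ht' P' (hP'.trans h₁.symm) hne⟩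
  fin := fnn_fin_of_principal hD

/-- the hypotheses of the factorisation at a centre on `C_0` and not on `C_∞` -/
theorem fnnHyp_zero (hH : NmHartogsStatement M p) (hG : NmPlaceGenStatement M p)
    (hS : NmSoftStatement M p) (hD : HasPrincipalDivisors Qb (FLb (M * p)))
    (A : ValuationSubring Qb) (h : NmSetup M p A) (P : Place Qb (FLb (M * p)))
    (hz : NmIdealZero M p h.cop A P) (hoo : ¬ NmIdealOo M p A P) :
    FnnHyp A (nmV0 M p h.cop A) (nmRed0 M p h.cop A) P where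
  soft := (nmBase_of_soft hS h).zero
  surj := (hS A h).2.2.2.2.2.2.2.2.2.1
  ideal := hz
  hart := fun g hg hpole => hH A h P g (fun h0 => absurd h0 hoo) (fun _ => hg) hpole
  gen := fun P₁ h₁ => by
    obtain ⟨t, ht, ht'⟩ := hG A h P₁
    exact ⟨t, ht, fun P' hP' hne => ht' P' (hP'.trans h₁.symm) hne⟩
  fin := fnn_fin_of_principal hD

/-- **(F3), component `∞`** : the factorisation at the centres on `C_∞` which are not on `C_0`
(non-node centres; this covers the cusps), from [HART], [PG], the soft facts and the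
finiteness of the divisors. -/
theorem nmFactorOo_nonnode (hH : NmHartogsStatement M p) (hG : NmPlaceGenStatement M p)
    (hS : NmSoftStatement M p) (hD : HasPrincipalDivisors Qb (FLb (M * p))) :
    ∀ (A : ValuationSubring Qb) (h : NmSetup M p A) (P : Place Qb (FLb (M * p))),
      NmIdealOo M p A P → ¬ NmIdealZero M p h.cop A P →
      GenFactor A (gaussOBar (M * p) A) (nmRedOo (M * p) A) P :=
  fun A h P hoo hz => fnn_genFactor (fnnHyp_oo hH hG hS hD A h P hoo hz)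

/-- **(F3), component `0`** : the twin. -/
theorem nmFactorZero_nonnode (hH : NmHartogsStatement M p) (hG : NmPlaceGenStatement M p)
    (hS : NmSoftStatement M p) (hD : HasPrincipalDivisors Qb (FLb (M * p))) :
    ∀ (A : ValuationSubring Qb) (h : NmSetup M p A) (P : Place Qb (FLb (M * p))),
      NmIdealZero M p h.cop A P → ¬ NmIdealOo M p A P →
      GenFactor A (nmV0 M p h.cop A) (nmRed0 M p h.cop A) P :=
  fun A h P hz hoo => fnn_genFactor (fnnHyp_zero hH hG hS hD A h P hz hoo)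

/-- **[DVR] at the non-node centres, component `∞`.** -/
theorem nmDvrOo_nonnode (hH : NmHartogsStatement M p) (hG : NmPlaceGenStatement M p)
    (hS : NmSoftStatement M p) (hD : HasPrincipalDivisors Qb (FLb (M * p)))
    (A : ValuationSubring Qb) (h : NmSetup M p A) (P : Place Qb (FLb (M * p)))
    (hoo : NmIdealOo M p A P) (hz : ¬ NmIdealZero M p h.cop A P) :
    ∃ Q : Place (kRes A) (NmF (M * p) A), NmSpecOo M p A (nmCentre A P) Q ∧
      ∀ z ∈ Q.toValuationSubring, NmLocalOo M p A P z :=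
  genDvr_of_factor P (nmBase_of_soft hS h).oo hoo (nmFactorOo_nonnode hH hG hS hD A h P hoo hz)

/-- **[DVR] at the non-node centres, component `0`.** -/
theorem nmDvrZero_nonnode (hH : NmHartogsStatement M p) (hG : NmPlaceGenStatement M p)
    (hS : NmSoftStatement M p) (hD : HasPrincipalDivisors Qb (FLb (M * p)))
    (A : ValuationSubring Qb) (h : NmSetup M p A) (P : Place Qb (FLb (M * p)))
    (hz : NmIdealZero M p h.cop A P) (hoo : ¬ NmIdealOo M p A P) :
    ∃ Q : Place (kRes A) (NmF (M * p) A), NmSpecZero M p h.cop A (nmCentre A P) Q ∧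
      ∀ z ∈ Q.toValuationSubring, NmLocalZero M p h.cop A P z :=
  genDvr_of_factor P (nmBase_of_soft hS h).zero hz
    (nmFactorZero_nonnode hH hG hS hD A h P hz hoo)

end Inst

end Fermat.Agent.H99.ORD
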